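/-
Fermat/Agent/AV/Hedge81/S26Final.lean  (helper81) -- CELL AV, HEDGE of the final assembly of S26.

Independent second assembly of `S26` from the landed bricks:
CURV (`Curv33.CurvMain87.curv`), GENFIN (`Box14.sumDegree_ne_zero`), FACT/symmetric divisor
(`Fact49.SymmetricDiv.exists_symmetric_effective_caDiv`, `PicDiv86.negMor_comp_negMor`),
CUBE (`Pic38.pow_map_schemeNsmul_of_rep`, with `hrep` from `S25.result`), UPB
(`Upb43.hfin_hupp_of_curvStatement`), SAND/VOLINST (`Sand86.volumeInput_of_divisor'`) and DEG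
(`Deg14.result_of_volumeInput`).
-/
import Fermat.Agent.AV.Pic38.Calc
import Fermat.Agent.AV.PicDiv86.Symmetric
import Fermat.Agent.AV.PicDiv86.Cl
import Fermat.Agent.AV.Fact49.SymmetricDiv
import Fermat.Agent.AV.Box14.SumDegree
import Fermat.Agent.AV.Sand86.VolInst
import Fermat.Agent.AV.Upb43.VolAdapter
import Fermat.Agent.AV.Curv33.Curv87
import Fermat.Agent.AV.Deg14.Glue
import Fermat.Agent.S25

set_option autoImplicit false
set_option linter.style.haveILetI false

universe u

open CategoryTheory CategoryTheory.Limits AlgebraicGeometry NeronModelInfra GoodReductionJacobian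
open AlgebraicGeometry.RelPicard

namespace Fermat.Agent.AV.Hedge81

open Fermat.Agent.AV.Curv33 Fermat.Agent.AV.PicDiv86 Fermat.Agent.AV.Pic38

variable {K : Type u} [Field K] [IsAlgClosed K] {A : Scheme.{u}}
  {f : A ⟶ Spec (CommRingCat.of K)}

/-- Representability of the Picard functors of the curves of a list (S25). -/
theorem hrep_of_list {e : SchemeHomOver (𝟙 (Spec (CommRingCat.of K))) f}
    (l : List (CurveTo f e)) :
    ∀ X ∈ l, ∃ (D : RelativePic0Designation K X.c)
      (_ : RepresentsRelSubPic X.c X.ε (algEquivZeroCut X.c X.ε) D),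
      IsSeparated D.toBase ∧ LocallyOfFiniteType D.toBase := by
  intro X _
  obtain ⟨D, ⟨h⟩, hs, hp, -⟩ := Fermat.Agent.S25.result K X.c X.ε
  exact ⟨D, h, inferInstance, inferInstance⟩

variable (G : RelativeGroupLaw K f)

/-- **HCUBE.**  A symmetric effective divisor `D` with affine complement whose class satisfies
`[N]^* cl D = (cl D)^(N²)` for all `N`. -/
theorem exists_divisor_hcube (hc : G.IsCommutative) (hA : AbelianSchemePropertyBundle K f)
    [IsIntegral A]
    (l : List (CurveTo f (G.one (𝟙 (Spec (CommRingCat.of K)))))) [IsDominant (sumMap G l)]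
    (hδ : Pic38.sumDegree G hA l ≠ 0) :
    ∃ (U : A.Opens) (D : CaDiv A), IsAffineOpen U ∧ Nonempty U ∧ D.IsEffective ∧
      D.support = (U : Set A)ᶜ ∧
      ∀ N : ℕ, Pic.map (G.schemeNsmul N) (cl D) = cl D ^ (N ^ 2) := by
  haveI := hA.smooth
  haveI := hA.proper
  haveI : A.IsSeparated := ⟨by
    have : IsSeparated f := inferInstance
    have h2 : terminal.from A = f ≫ terminal.from _ := Subsingleton.elim _ _
    rw [h2]
    infer_instance⟩
  obtain ⟨hdom, U, D₁, hU, hne, -, hD₁, hsupp, hsymD⟩ :=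
    Fact49.SymmetricDiv.exists_symmetric_effective_caDiv f (negMor G) (negMor_comp_negMor G)
  haveI := hdom
  have hsym : Pic.map (G.inv f RelativeGroupLaw.idPoint).1 (cl D₁) = cl D₁ := by
    have := map_cl (negMor G) D₁
    rw [hsymD] at this
    exact this
  set δ := Pic38.sumDegree G hA l with hδdef
  refine ⟨U, D₁ ^ δ, hU, hne, hD₁.pow δ, ?_, fun N => ?_⟩
  · rw [CaDiv.support_pow_of_isEffective hD₁ (Nat.pos_of_ne_zero hδ), hsupp]
  · have key := pow_map_schemeNsmul_of_rep G hc hA l (hrep_of_list l) (cl D₁) hsym N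
    rw [map_pow, map_pow, key, ← pow_mul]

/-- **S26**, hedge assembly. -/
theorem s26 (K : Type u) [Field K] [IsAlgClosed K] {A : Scheme.{u}}
    (f : A ⟶ Spec (CommRingCat.of K))
    (L : RelativeGroupLaw K f) (hc : L.IsCommutative) (hA : AbelianSchemePropertyBundle K f)
    (g : ℕ) [SmoothOfRelativeDimension g f] (n : ℕ) (hn : (n : K) ≠ 0) :
    Nat.card {x : SchemeHomOver (𝟙 (Spec (CommRingCat.of K))) f //
        L.IsTorsionPoint (𝟙 (Spec (CommRingCat.of K))) n x} = n ^ (2 * g) := by
  haveI := hA.smooth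
  haveI := hA.proper
  haveI : IsIntegral A := Var81.isIntegral_of_bundle f hA
  obtain ⟨l, hl, hdom⟩ := CurvMain87.curv L g
  haveI := hdom
  have hδ := Box14.sumDegree_ne_zero L hA g l hl
  obtain ⟨U, D, hU, hne, hD, hsupp, hcube⟩ := exists_divisor_hcube L hc hA l hδ
  haveI := hne
  letI : Algebra K A.functionField := (Sand86.structK f).toAlgebra
  have halg : ∀ r : K, algebraMap K A.functionField r = Sand86.structK f r := fun _ => rfl
  obtain ⟨hfin, hupp⟩ := Upb43.hfin_hupp_of_curvStatement L g ⟨l, hl, hdom⟩ halg hD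
  exact Deg14.result_of_volumeInput L hc hA g n hn
    (Sand86.volumeInput_of_divisor' L hc hA g n hn halg hD hU hsupp hfin hupp
      (fun j => hcube (n ^ j)))

end Fermat.Agent.AV.Hedge81
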